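import Fermat.Agent.TateLifting.Bockstein

/-!
# Tate's lifting theorem

Dévissage gives `H²(G_ℚ, μ_∞) = 0`, so the obstruction to lifting a projective representation,
a cocycle in the scalars killed by the dimension once the lifts have determinant one, vanishes.
-/

set_option autoImplicit false
set_option linter.unusedSectionVars false

noncomputable section

namespace Fermat.Agent.TateLifting

open FA.GalCoh Fermat.Agent.ScholzReichardt
open scoped MatrixGroups

/-- **Dévissage**: a cocycle with values killed by `n` is a coboundary in the roots of unity. -/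
theorem exists_trivialisation {n : ℕ} (hn : 0 < n) (c : GQ × GQ → ℂˣ) (hlc : LC₂ LQ c)
    (hco : ∀ g h j, c (g * h, j) * c (g, h) = c (h, j) * c (g, h * j))
    (hpow : ∀ x, c x ^ n = 1) : IsTrivInf LQ c := by
  induction n using Nat.strong_induction_on generalizing c with
  | _ n ih =>
  rcases eq_or_ne n 1 with rfl | hn1
  · refine ⟨fun _ => 1, LC₁.const 1, fun _ => IsOfFinOrder.one, fun g h => ?_⟩
    rw [← pow_one (c (g, h)), hpow, one_mul]
  set p := n.minFac
  have hp : Fact p.Prime := ⟨Nat.minFac_prime hn1⟩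
  obtain ⟨m, hm⟩ := Nat.minFac_dvd n
  have hm0 : 0 < m := Nat.pos_of_ne_zero fun h => hn.ne' (by rw [hm, h, mul_zero])
  have hmn : m < n := by
    have := hp.out.two_le
    rw [hm]
    nlinarith
  obtain ⟨b, hblc, hbo, hb⟩ := ih m hmn hm0 (fun x => c x ^ p) (hlc.comp (· ^ p))
    (fun g h j => by simp only [← mul_pow, hco]) fun x => by rw [← pow_mul, ← hm, hpow]
  have hroot : ∀ x : ℂˣ, ∃ y : ℂˣ, y ^ p = x := fun x => by
    obtain ⟨z, hz⟩ := IsAlgClosed.exists_pow_nat_eq (x : ℂ) hp.out.pos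
    have hz0 : z ≠ 0 := fun h => x.ne_zero (by rw [← hz, h, zero_pow hp.out.ne_zero])
    exact ⟨Units.mk0 z hz0, Units.ext (by rw [Units.val_pow_eq_pow_val]; exact hz)⟩
  choose r hr using hroot
  let b₁ : GQ → ℂˣ := fun g => r (b g)
  have hb₁o : ∀ g, IsOfFinOrder (b₁ g) := fun g =>
    IsOfFinOrder.of_pow (by rw [hr]; exact hbo g) hp.out.ne_zero
  let d : GQ × GQ → ℂˣ := fun x => c x * b₁ (x.1 * x.2) / (b₁ x.1 * b₁ x.2)
  have hd : ∀ x, d x ^ p = 1 := fun x => by
    simp only [d, b₁, div_pow, mul_pow, hr, hb, div_self']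
  choose lg hlg using fun y : {y : ℂˣ // y ^ p = 1} => exists_muC_eq (p := p) y.2
  let Zf : GQ × GQ → ZMod p := fun x => lg ⟨d x, hd x⟩
  have hZ : ∀ x, muC p (Zf x) = d x := fun x => hlg _
  have hb₁lc : LC₁ LQ b₁ := hblc.comp r
  have hdlc : LC₂ LQ d :=
    (hlc.map₂ hb₁lc.mul (· * ·)).map₂ (hb₁lc.fst.map₂ hb₁lc.snd (· * ·)) (· / ·)
  have hdco : ∀ g h j, d (g * h, j) * d (g, h) = d (h, j) * d (g, h * j) := fun g h j => by
    simp only [d]
    rw [div_mul_div_comm, div_mul_div_comm, div_eq_div_iff_mul_eq_mul, mul_assoc g h j]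
    calc c (g * h, j) * b₁ (g * (h * j)) * (c (g, h) * b₁ (g * h))
          * (b₁ h * b₁ j * (b₁ g * b₁ (h * j)))
        = (c (g * h, j) * c (g, h))
          * (b₁ (g * (h * j)) * b₁ (g * h) * (b₁ h * b₁ j) * (b₁ g * b₁ (h * j))) := by
          ac_rfl
      _ = (c (h, j) * c (g, h * j))
          * (b₁ (g * (h * j)) * b₁ (g * h) * (b₁ h * b₁ j) * (b₁ g * b₁ (h * j))) := by
          rw [hco]
      _ = _ := by ac_rfl
  let Z : ↥(Z2 LQ (triv GQ p)) := ⟨Zf, by
    obtain ⟨N, hN, hs⟩ := hdlc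
    exact ⟨N, hN, fun g g' u u' hu hu' => muC_injective (by rw [hZ, hZ, hs g g' u u' hu hu'])⟩,
    fun g h j => muC_injective (p := p) (by
      show muC p (Zf (g * h, j) + Zf (g, h)) = muC p (Zf (h, j) + Zf (g, h * j))
      rw [muC_add, muC_add, hZ, hZ, hZ, hZ, hdco])⟩
  obtain ⟨b₂, hb₂lc, hb₂o, hb₂⟩ := isTrivInf_muZ Z
  refine ⟨fun g => b₁ g * b₂ g, hb₁lc.map₂ hb₂lc (· * ·), fun g => (hb₁o g).mul (hb₂o g),
    fun g h => ?_⟩
  have h2 : d (g, h) * b₂ (g * h) = b₂ g * b₂ h := by
    rw [← hb₂ g h, muZ, show Z.1 = Zf from rfl, hZ]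
  rw [mul_mul_mul_comm, ← h2]
  simp only [d]
  rw [← mul_assoc, ← mul_assoc, mul_div_cancel]

open Matrix

variable {N : ℕ}

theorem exists_det_one_lift (x : PGL(N, ℂ)) :
    ∃ A : GL (Fin N) ℂ, ProjGenLinGroup.mk A = x ∧ GeneralLinearGroup.det A = 1 := by
  obtain ⟨A, rfl⟩ := ProjGenLinGroup.mk_surjective x
  rcases Nat.eq_zero_or_pos N with rfl | hN
  · refine ⟨A, rfl, Units.ext ?_⟩
    rw [GeneralLinearGroup.val_det_apply, det_isEmpty, Units.val_one]
  obtain ⟨z, hz⟩ :=
    IsAlgClosed.exists_pow_nat_eq (((GeneralLinearGroup.det A)⁻¹ : ℂˣ) : ℂ) hN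
  have hz0 : z ≠ 0 := fun h =>
    ((GeneralLinearGroup.det A)⁻¹).ne_zero (by rw [← hz, h, zero_pow hN.ne'])
  refine ⟨A * GeneralLinearGroup.scalar (Fin N) (Units.mk0 z hz0), by
    rw [map_mul, ProjGenLinGroup.mk_scalar, mul_one], ?_⟩
  rw [map_mul, show GeneralLinearGroup.det (GeneralLinearGroup.scalar (Fin N) (Units.mk0 z hz0))
    = (GeneralLinearGroup.det A)⁻¹ from Units.ext (by
      rw [GeneralLinearGroup.val_det_apply]
      show (Matrix.scalar (Fin N) z).det = _
      rw [Matrix.scalar_apply, det_diagonal, Finset.prod_const, Finset.card_univ,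
        Fintype.card_fin, hz]), mul_inv_cancel]

/-- **Tate's lifting theorem**: a projective representation of `G_ℚ` with open kernel lifts to a
linear one with open kernel. -/
theorem exists_projective_lift (f : GQ →* PGL(N, ℂ)) (hf : IsOpen (f.ker : Set GQ)) :
    ∃ ρ : GQ →* GL (Fin N) ℂ, IsOpen (ρ.ker : Set GQ) ∧ ∀ g, ProjGenLinGroup.mk (ρ g) = f g := by
  classical
  rcases Nat.eq_zero_or_pos N with rfl | hN
  · exact ⟨1, by rw [MonoidHom.ker_one]; exact isOpen_univ, fun g => by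
      obtain ⟨A, hA⟩ := ProjGenLinGroup.mk_surjective (f g)
      rw [← hA]
      exact congrArg _ (Subsingleton.elim _ _)⟩
  choose s hs hsdet using exists_det_one_lift (N := N)
  have hne : Nonempty (Fin N) := ⟨⟨0, hN⟩⟩
  have hscal : Function.Injective (GeneralLinearGroup.scalar (R := ℂ) (Fin N)) := fun a b h =>
    Units.ext (Matrix.scalar_inj.1 (congrArg Units.val h))
  choose z hz using fun x y : PGL(N, ℂ) =>
    ProjGenLinGroup.mk_eq_mk_iff.1
      (show ProjGenLinGroup.mk (s (x * y)) = ProjGenLinGroup.mk (s x * s y) by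
        rw [map_mul, hs, hs, hs])
  have hcomm : ∀ (u : ℂˣ) (A : GL (Fin N) ℂ),
      A * GeneralLinearGroup.scalar (Fin N) u = GeneralLinearGroup.scalar (Fin N) u * A :=
    fun u A => Subgroup.mem_center_iff.1 (by
      rw [GeneralLinearGroup.center_eq_range_scalar]; exact ⟨u, rfl⟩) A
  have hzpow : ∀ x y, z x y ^ N = 1 := fun x y => by
    have h := congrArg GeneralLinearGroup.det (hz x y)
    rw [map_mul, map_mul, hsdet, hsdet, hsdet, one_mul, one_mul] at h
    refine Units.ext ?_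
    have h' := congrArg Units.val h
    rw [GeneralLinearGroup.val_det_apply] at h'
    change (Matrix.scalar (Fin N) (z x y : ℂ)).det = (1 : ℂ) at h'
    rw [Matrix.scalar_apply, det_diagonal, Finset.prod_const, Finset.card_univ,
      Fintype.card_fin] at h'
    rw [Units.val_pow_eq_pow_val, Units.val_one]
    exact h'
  have hzco : ∀ x y w, z (x * y) w * z x y = z y w * z x (y * w) := fun x y w => by
    refine hscal (mul_left_cancel (a := s (x * y * w)) ?_)
    calc s (x * y * w) * GeneralLinearGroup.scalar (Fin N) (z (x * y) w * z x y)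
        = s (x * y) * s w * GeneralLinearGroup.scalar (Fin N) (z x y) := by
          rw [map_mul, ← mul_assoc, hz]
      _ = s x * s y * s w := by rw [mul_assoc, hcomm (z x y) (s w), ← mul_assoc, hz]
      _ = s x * (s (y * w) * GeneralLinearGroup.scalar (Fin N) (z y w)) := by rw [hz, mul_assoc]
      _ = s (x * (y * w)) * GeneralLinearGroup.scalar (Fin N) (z x (y * w))
            * GeneralLinearGroup.scalar (Fin N) (z y w) := by rw [hz x (y * w), mul_assoc]
      _ = s (x * y * w) * GeneralLinearGroup.scalar (Fin N) (z y w * z x (y * w)) := by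
          rw [mul_assoc x y w, mul_comm (z y w), map_mul]
          exact mul_assoc _ _ _
  obtain ⟨b, hblc, -, hb⟩ := exists_trivialisation hN (fun x => z (f x.1) (f x.2))
    ((lc_of_isOpen f hf).fst.map₂ (lc_of_isOpen f hf).snd fun a b => z a b)
    (fun g h j => by simp only [map_mul]; exact hzco _ _ _) fun x => hzpow _ _
  let ρ : GQ →* GL (Fin N) ℂ :=
    MonoidHom.mk' (fun g => s (f g) * GeneralLinearGroup.scalar (Fin N) (b g)⁻¹) fun g h => by
      have hb' : z (f g) (f h) * ((b g)⁻¹ * (b h)⁻¹) = (b (g * h))⁻¹ := by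
        rw [← mul_inv, ← hb g h, mul_inv, mul_inv_cancel_left]
      set S := GeneralLinearGroup.scalar (R := ℂ) (Fin N)
      symm
      calc s (f g) * S (b g)⁻¹ * (s (f h) * S (b h)⁻¹)
          = s (f g) * s (f h) * (S (b g)⁻¹ * S (b h)⁻¹) := by
            rw [mul_assoc, ← mul_assoc (S (b g)⁻¹), ← hcomm (b g)⁻¹ (s (f h)), mul_assoc,
              ← mul_assoc]
        _ = s (f (g * h)) * S (b (g * h))⁻¹ := by
            rw [← hz (f g) (f h), map_mul f g h, mul_assoc, ← map_mul S,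
              ← map_mul S, hb']
  refine ⟨ρ, isOpen_of_lc ρ ((lc_of_isOpen f hf).map₂ hblc fun a c =>
    s a * GeneralLinearGroup.scalar (Fin N) c⁻¹), fun g => ?_⟩
  show ProjGenLinGroup.mk (s (f g) * GeneralLinearGroup.scalar (Fin N) (b g)⁻¹) = f g
  rw [map_mul, ProjGenLinGroup.mk_scalar, mul_one, hs]

end Fermat.Agent.TateLifting
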