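import Fermat.Agent.TateLifting.Carry
import Fermat.Agent.ScholzReichardt.LocalPGroups

/-!
# The local classes are Bockstein classes of global characters

At a prime the second cohomology modulo `p` is at most a line, and zero unless the prime is `1`
modulo `p` or `p = 2`. There a Dirichlet character of that conductor has a non-trivial Bockstein,
as otherwise it would lift globally, against the tame relation or complex conjugation.
-/

set_option autoImplicit false
set_option linter.unusedSectionVars false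

noncomputable section

namespace Fermat.Agent.TateLifting

open FA.GalCoh Fermat.Agent.ScholzReichardt

variable {p : ℕ} [hp : Fact p.Prime]

theorem finrank_H2_le_one (q : ℕ) [Fact q.Prime] :
    Module.Finite (ZMod p) (H2 (LL q) (triv (LG q) p)) ∧
      Module.finrank (ZMod p) (H2 (LL q) (triv (LG q) p)) ≤ 1 := by
  obtain ⟨hfin, h⟩ := finrank_H2Q q (ScholzReichardt.trivPair p)
  exact ⟨hfin, h.trans_le ((Submodule.finrank_le _).trans (Module.finrank_self _).le)⟩

theorem subsingleton_H2_of_not_dvd {q : ℕ} [hq : Fact q.Prime] (hqp : q ≠ p)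
    (hd : ¬ p ∣ q - 1) : Subsingleton (H2 (LL q) (triv (LG q) p)) := by
  obtain ⟨hfin, h⟩ := finrank_H2Q q (ScholzReichardt.trivPair p)
  have hbot : Representation.invariants ((chr (cycQ p).χ).comp (loc q)) = ⊥ := by
    refine eq_bot_iff.2 fun v hv => (Submodule.mem_bot _).2 ?_
    by_contra hv0
    have h0 : ((cycQ p).χ (loc q (frobL q)) : ZMod p) * v = v := hv (frobL q)
    have h1 : ((cycQ p).χ (loc q (frobL q)) : ZMod p) = 1 :=
      mul_right_cancel₀ hv0 (h0.trans (one_mul v).symm)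
    have hndvd : ¬ q ∣ p := fun h' =>
      hqp ((Nat.prime_dvd_prime_iff_eq hq.out hp.out).1 h')
    set z := padicEmbedding q (zetaQ p)
    have hzp : IsPrimitiveRoot z p := (cycL p q).prim
    have e1 : frobL q z = z ^ q := frobL_apply_root hndvd hzp.pow_eq_one
    have e2 : frobL q z = z := by
      show frobL q (padicEmbedding q (zetaQ p)) = _
      rw [← iota_loc, apply_zetaQ, show (ExtCitation.cycloChar p (loc q (frobL q)) : ZMod p) = 1
        from h1, ZMod.val_one, pow_one]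
    have hz0 : z ≠ 0 := hzp.ne_zero hp.out.ne_zero
    refine hd ((hzp.pow_eq_one_iff_dvd _).1 (mul_left_cancel₀ hz0 ?_))
    rw [mul_one, ← pow_succ', Nat.sub_add_cancel hq.out.one_le, ← e1, e2]
  change Module.finrank (ZMod p) (H2 (LL q) (triv (LG q) p)) = Module.finrank (ZMod p)
    ↥(Representation.invariants ((chr (cycQ p).χ).comp (loc q))) at h
  rw [hbot, finrank_bot] at h
  exact Module.finrank_zero_iff.1 h

variable {K : ℕ}

/-- The restriction of a character to a prime. -/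
def locCh (χ : AddCh LQ (p ^ K)) (q : ℕ) [Fact q.Prime] : AddCh (LL q) (p ^ K) :=
  ⟨fun τ => χ (loc q τ), fun g h => by rw [map_mul, χ.add], χ.lc.precomp compat_loc⟩

theorem locClass_carry (χ : AddCh LQ (p ^ K)) (q : ℕ) [Fact q.Prime] :
    locClass q (carry χ) = mk2 (LL q) (triv (LG q) p) (carry (locCh χ q)) := rfl

/-- An unramified character lifts, so its Bockstein vanishes at the prime. -/
theorem locClass_carry_eq_zero (χ : AddCh LQ (p ^ K)) (r : ℕ) [Fact r.Prime]
    (hu : ∀ ι ∈ inertL r, χ (loc r ι) = 0) : locClass r (carry χ) = 0 := by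
  rw [locClass_carry]
  set a : ZMod (p ^ (K + 1)) := (((χ (loc r (frobL r))).val : ℕ) : ZMod (p ^ (K + 1)))
  refine carry_eq_zero_of_lift _ ⟨fun τ => a * frobExp (p ^ (K + 1)) τ,
    fun g h => by rw [frobExp_mul, mul_add], (frobExp_lc _).comp (a * ·)⟩ fun τ => ?_
  let f₁ : LG r →* Multiplicative (ZMod (p ^ K)) :=
    MonoidHom.mk' (fun t => Multiplicative.ofAdd
      (lowHom p K (a * frobExp (p ^ (K + 1)) t))) fun g h => by
        rw [frobExp_mul, mul_add, map_add, ofAdd_add]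
  let f₂ : LG r →* Multiplicative (ZMod (p ^ K)) :=
    MonoidHom.mk' (fun t => Multiplicative.ofAdd (χ (loc r t))) fun g h => by
      rw [map_mul, χ.add, ofAdd_add]
  have e : f₁ = f₂ := locHom_ext
    ((frobExp_lc _).comp fun x => Multiplicative.ofAdd (lowHom p K (a * x)))
    ((χ.lc.precomp compat_loc).comp Multiplicative.ofAdd) (fun ι hι => by
      show Multiplicative.ofAdd _ = Multiplicative.ofAdd (χ (loc r ι))
      rw [frobExp_inertL hι, mul_zero, map_zero, hu ι hι]) (by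
      show Multiplicative.ofAdd (lowHom p K (a * frobExp (p ^ (K + 1)) (frobL r)))
        = Multiplicative.ofAdd (χ (loc r (frobL r)))
      rw [frobExp_frobL, mul_one, map_natCast, ZMod.natCast_zmod_val])
  exact Multiplicative.ofAdd.injective (DFunLike.congr_fun e τ)

/-- A character unramified away from `q` without a global lift has a non-zero Bockstein at `q`. -/
theorem locClass_carry_ne_zero (χ : AddCh LQ (p ^ K)) (q : Nat.Primes)
    (hu : ∀ r : Nat.Primes, r ≠ q → ∀ ι ∈ inertL (r : ℕ), χ (loc (r : ℕ) ι) = 0)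
    (hno : ∀ ψ : AddCh LQ (p ^ (K + 1)), (∀ g, lowHom p K (ψ g) = χ g) → False) :
    locClass (q : ℕ) (carry χ) ≠ 0 := fun h0 => by
  obtain ⟨ψ, hψ⟩ := exists_lift_of_carry χ (mk2_eq_zero_of_local _ fun r => by
    by_cases hr : r = q
    · rw [hr]; exact h0
    · exact locClass_carry_eq_zero χ (r : ℕ) (hu r hr))
  exact hno ψ hψ

/-- The Dirichlet character of a prime `q ≡ 1` modulo `p`. -/
theorem exists_ch_tame (q : Nat.Primes) (hqp : (q : ℕ) ≠ p) (hd : p ∣ (q : ℕ) - 1) :
    ∃ (K : ℕ) (χ : AddCh LQ (p ^ K)),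
      (∀ r : Nat.Primes, r ≠ q → ∀ ι ∈ inertL (r : ℕ), χ (loc (r : ℕ) ι) = 0) ∧
      locClass (q : ℕ) (carry χ) ≠ 0 := by
  have hq0 : (q : ℕ) - 1 ≠ 0 := by have := q.2.two_le; omega
  obtain ⟨K, m, hm, he⟩ := Nat.exists_eq_pow_mul_and_not_dvd hq0 p hp.out.ne_one
  have hK : K ≠ 0 := fun h => hm (by rwa [he, h, pow_zero, one_mul] at hd)
  obtain ⟨t, ht, w, hw, hwlc, hwu, hwt, -⟩ := exists_tame_char (p := p) (X := PUnit) hqp
    (n := K) (he ▸ dvd_mul_right _ _) (fun x => ⟨0, Subsingleton.elim _ _⟩) 1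
    (by rw [MonoidHom.ker_one]; exact isOpen_univ)
  have hu : ∀ r : Nat.Primes, r ≠ q → ∀ ι ∈ inertL (r : ℕ), w (loc (r : ℕ) ι) = 0 :=
    fun r hr => hwu (r : ℕ) fun h => hr (Subtype.ext h)
  refine ⟨K, ⟨w, hw, hwlc⟩, hu, locClass_carry_ne_zero _ q hu fun ψ hψ => ?_⟩
  let F : GQ →* Multiplicative (ZMod (p ^ (K + 1))) :=
    MonoidHom.mk' (fun g => Multiplicative.ofAdd (ψ g)) fun g h => by rw [ψ.add, ofAdd_add]
  have htame := FA.RT.tame_relation F hp.out q.2 hqp.symm (liesOverPrime_padicPlace (q : ℕ))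
    (isOpen_of_lc F (ψ.lc.comp Multiplicative.ofAdd)) (fun σ _ => ⟨K + 1, by
      rw [← ofAdd_toAdd (F σ), ← ofAdd_nsmul, nsmul_eq_mul, ZMod.natCast_self, zero_mul,
        ofAdd_zero]⟩) (frobL_spec (q : ℕ)) (s := loc (q : ℕ) t) ht
  rw [mul_comm, mul_left_inj] at htame
  have h1 := congrArg Multiplicative.toAdd htame
  rw [toAdd_pow] at h1
  set x := ψ (loc (q : ℕ) t)
  change x = (q : ℕ) • x at h1
  have hx : lowHom p K x = 1 := (hψ _).trans hwt
  obtain ⟨k, hk⟩ : p ^ (K + 1) ∣ ((q : ℕ) - 1) * x.val := by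
    rw [← ZMod.natCast_eq_zero_iff, Nat.cast_mul, Nat.cast_sub q.2.one_le, Nat.cast_one,
      ZMod.natCast_zmod_val, sub_mul, one_mul, ← nsmul_eq_mul, ← h1, sub_self]
  have hxval : ¬ p ∣ x.val := fun hdx => by
    have h2 : ((x.val : ℕ) : ZMod p) = 0 := (ZMod.natCast_eq_zero_iff _ _).2 hdx
    have h3 := congrArg (ZMod.castHom (dvd_pow_self p hK) (ZMod p)) hx
    rw [← ZMod.natCast_zmod_val x, map_natCast, map_natCast, h2, map_one] at h3
    exact zero_ne_one h3
  generalize x.val = v at hk hxval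
  rw [he, pow_succ, mul_assoc, mul_assoc] at hk
  have h4 : p ∣ m * v :=
    ⟨k, Nat.eq_of_mul_eq_mul_left (pow_pos hp.out.pos K) hk⟩
  exact (hp.out.dvd_mul.1 h4).elim hm hxval

/-- The character of `ℚ(i)`. -/
theorem exists_ch_two (q : Nat.Primes) (hq : (q : ℕ) = 2) :
    ∃ (K : ℕ) (χ : AddCh LQ (2 ^ K)),
      (∀ r : Nat.Primes, r ≠ q → ∀ ι ∈ inertL (r : ℕ), χ (loc (r : ℕ) ι) = 0) ∧
      locClass (q : ℕ) (carry χ) ≠ 0 := by
  classical
  let φ : (ZMod (2 ^ 2))ˣ → ZMod (2 ^ 1) := fun u => if u = 1 then 0 else 1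
  have hφ : ∀ a b, φ (a * b) = φ a + φ b := by decide
  have hlc : LC₁ LQ fun g => φ (cycMod 2 2 g) :=
    (lc_of_isOpen _ (isOpen_ker_cycMod (p := 2) 2)).comp φ
  let χ : AddCh LQ (2 ^ 1) :=
    ⟨fun g => φ (cycMod 2 2 g), fun g h => by rw [map_mul, hφ], hlc⟩
  have hu : ∀ r : Nat.Primes, r ≠ q → ∀ ι ∈ inertL (r : ℕ), χ (loc (r : ℕ) ι) = 0 := by
    intro r hr ι hι
    show φ (cycMod 2 2 (loc (r : ℕ) ι)) = 0
    rw [cycMod_inertL (fun h => hr (Subtype.ext (h.trans hq.symm))) 2 hι]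
    exact if_pos rfl
  refine ⟨1, χ, hu, locClass_carry_ne_zero χ q hu fun ψ hψ => ?_⟩
  have hc : (cycMod 2 2 complexConjugation : ZMod (2 ^ 2)) = ((3 : ℕ) : ZMod (2 ^ 2)) :=
    cycMod_eq_natCast fun μ hμ => complexEmbedding.toRingHom.injective (by
      show complexEmbedding _ = complexEmbedding _
      rw [complexEmbedding_complexConjugation, map_pow]
      have h4 : complexEmbedding μ ^ 4 = 1 := by
        rw [← map_pow, show (4 : ℕ) = 2 ^ 2 from rfl, hμ, map_one]
      rw [← Complex.inv_eq_conj (Complex.norm_eq_one_of_pow_eq_one h4 (by norm_num))]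
      exact inv_eq_of_mul_eq_one_right (by rw [← pow_succ', h4]))
  have h1 : χ complexConjugation = 1 := if_neg fun h => by
    rw [h, Units.val_one] at hc
    exact absurd hc (by decide)
  have h2 : ψ complexConjugation + ψ complexConjugation = 0 := by
    rw [← ψ.add, complexConjugation_mul_self]
    exact ScholzReichardt.add_map_one ψ.add
  have key : ∀ x : ZMod (2 ^ (1 + 1)), x + x = 0 → lowHom 2 1 x = 1 → False := by
    intro x hx h1x
    revert x
    decide
  exact key _ h2 ((hψ _).trans h1)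

/-- **Every local class is killed by a Bockstein.** -/
theorem exists_kill (Z : ↥(Z2 LQ (triv GQ p))) (q : Nat.Primes) :
    ∃ W : ↥(Z2 LQ (triv GQ p)), locClass (q : ℕ) (Z + W) = 0 ∧
      (∀ r : Nat.Primes, r ≠ q → locClass (r : ℕ) W = 0) ∧ IsTrivInf LQ (muZ W) := by
  by_cases h0 : locClass (q : ℕ) Z = 0
  · exact ⟨0, by rwa [add_zero], fun r _ => map_zero _, isTrivInf_of_zero (map_zero _)⟩
  obtain ⟨K, χ, hu, hne⟩ : ∃ (K : ℕ) (χ : AddCh LQ (p ^ K)),
      (∀ r : Nat.Primes, r ≠ q → ∀ ι ∈ inertL (r : ℕ), χ (loc (r : ℕ) ι) = 0) ∧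
      locClass (q : ℕ) (carry χ) ≠ 0 := by
    rcases eq_or_ne (q : ℕ) p with hqp | hqp
    · rcases eq_or_ne p 2 with rfl | hp2
      · exact exists_ch_two q hqp
      · obtain rfl : q = ⟨p, hp.out⟩ := Subtype.ext hqp
        exact absurd ((subsingleton_H2_local hp2).elim _ _) h0
    · by_cases hd : p ∣ (q : ℕ) - 1
      · exact exists_ch_tame q hqp hd
      · exact absurd ((subsingleton_H2_of_not_dvd hqp hd).elim _ _) h0
  obtain ⟨hfin, hle⟩ := finrank_H2_le_one (p := p) (q : ℕ)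
  have hpos : Module.finrank (ZMod p) (H2 (LL (q : ℕ)) (triv (LG (q : ℕ)) p)) = 1 :=
    le_antisymm hle (Module.finrank_pos_iff_exists_ne_zero.2 ⟨_, hne⟩)
  obtain ⟨j, hj⟩ := exists_smul_eq_of_finrank_eq_one hpos hne (-locClass (q : ℕ) Z)
  have hc : ∀ r : Nat.Primes, r ≠ q → locClass (r : ℕ) (j • carry χ) = 0 := fun r hr => by
    rw [map_smul, locClass_carry_eq_zero χ (r : ℕ) (hu r hr), smul_zero]
  refine ⟨j • carry χ, by rw [map_add, map_smul, hj, add_neg_cancel], hc, ?_⟩
  have hn : ∀ n : ℕ, IsTrivInf LQ (muZ (n • carry χ)) := fun n => by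
    induction n with
    | zero => rw [zero_smul]; exact isTrivInf_of_zero (map_zero _)
    | succ n ih => rw [succ_nsmul, muZ_add]; exact ih.mul (isTrivInf_carry χ)
  have : NeZero p := ⟨hp.out.ne_zero⟩
  rw [← ZMod.natCast_zmod_val j, Nat.cast_smul_eq_nsmul]
  exact hn _

/-- **`H²(G_ℚ, ℤ/p) → H²(G_ℚ, μ_∞)` is zero.** -/
theorem isTrivInf_muZ (Z : ↥(Z2 LQ (triv GQ p))) : IsTrivInf LQ (muZ Z) := by
  classical
  suffices h : ∀ (S : Finset Nat.Primes) (W : ↥(Z2 LQ (triv GQ p))),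
      (∀ q : Nat.Primes, q ∉ S → locClass (q : ℕ) W = 0) → IsTrivInf LQ (muZ W) by
    obtain ⟨S, hS⟩ := exists_finset_locClass Z
    exact h S Z hS
  intro S
  induction S using Finset.induction_on with
  | empty =>
    intro W hW
    exact isTrivInf_of_zero (mk2_eq_zero_of_local W fun q => hW q (Finset.notMem_empty _))
  | insert q S hqS ih =>
    intro W hW
    obtain ⟨V, hV, hVr, hVt⟩ := exists_kill W q
    have h1 := ih (W + V) fun r hr => by
      by_cases hrq : r = q
      · rw [hrq]; exact hV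
      · rw [map_add, hVr r hrq, hW r fun h => hr ((Finset.mem_insert.1 h).resolve_left hrq),
          add_zero]
    obtain ⟨b, hblc, hbo, hb⟩ := hVt
    have hinv : IsTrivInf LQ fun x => (muZ V x)⁻¹ := by
      refine ⟨fun g => (b g)⁻¹, hblc.comp (·⁻¹), fun g => (hbo g).inv, fun g h => ?_⟩
      rw [← mul_inv, hb, mul_inv]
    have h2 := h1.mul hinv
    rwa [muZ_add, show (fun x => (fun y => muZ W y * muZ V y) x * (muZ V x)⁻¹) = muZ W from
      funext fun x => mul_inv_cancel_right _ _] at h2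

end Fermat.Agent.TateLifting
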