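import Fermat.Agent.TateLifting.Cocycle
import Mathlib.RingTheory.RootsOfUnity.Complex

/-!
# The Bockstein of a character

The carry cocycle of a character into `ℤ/p^K` is trivial exactly when the character lifts to
`ℤ/p^(K+1)`, and becomes trivial in the roots of unity in any case.
-/

set_option autoImplicit false
set_option linter.unusedSectionVars false

noncomputable section

namespace Fermat.Agent.TateLifting

open FA.GalCoh Fermat.Agent.ScholzReichardt

variable {p : ℕ} [hp : Fact p.Prime] {K : ℕ} {Γ : Type} [Group Γ] {L : Levels Γ}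

instance neZero_pow : NeZero (p ^ K) := ⟨pow_ne_zero _ hp.out.ne_zero⟩

variable (p K) in
/-- `a ↦ a p^K` from `ℤ/p` to `ℤ/p^(K+1)`. -/
def topHom : ZMod p →+ ZMod (p ^ (K + 1)) :=
  ZMod.lift p ⟨zmultiplesHom _ ((p ^ K : ℕ) : ZMod (p ^ (K + 1))), by
    rw [zmultiplesHom_apply, natCast_zsmul, nsmul_eq_mul, ← Nat.cast_mul, ← pow_succ',
      ZMod.natCast_self]⟩

theorem topHom_natCast (n : ℕ) :
    topHom p K (n : ZMod p) = ((n * p ^ K : ℕ) : ZMod (p ^ (K + 1))) := by
  rw [topHom, show (n : ZMod p) = ((n : ℤ) : ZMod p) from (Int.cast_natCast n).symm,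
    ZMod.lift_coe]
  show ((n : ℤ) • ((p ^ K : ℕ) : ZMod (p ^ (K + 1)))) = _
  rw [natCast_zsmul, nsmul_eq_mul, ← Nat.cast_mul]

theorem topHom_injective : Function.Injective (topHom p K) :=
  (injective_iff_map_eq_zero _).2 fun a ha => by
    rw [← ZMod.natCast_zmod_val a, topHom_natCast, ZMod.natCast_eq_zero_iff, pow_succ',
      Nat.mul_dvd_mul_iff_right (pow_pos hp.out.pos K)] at ha
    rw [← ZMod.natCast_zmod_val a, ZMod.natCast_eq_zero_iff]
    exact ha

variable (p K) in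
/-- The reduction from `ℤ/p^(K+1)` to `ℤ/p^K`. -/
def lowHom : ZMod (p ^ (K + 1)) →+* ZMod (p ^ K) := ZMod.castHom (pow_dvd_pow p K.le_succ) _

theorem lowHom_topHom (a : ZMod p) : lowHom p K (topHom p K a) = 0 := by
  rw [← ZMod.natCast_zmod_val a, topHom_natCast, map_natCast, Nat.cast_mul, ZMod.natCast_self,
    mul_zero]

theorem exists_topHom {x : ZMod (p ^ (K + 1))} (hx : lowHom p K x = 0) :
    ∃ a, topHom p K a = x := by
  rw [← ZMod.natCast_zmod_val x, map_natCast, ZMod.natCast_eq_zero_iff] at hx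
  exact ⟨(x.val / p ^ K : ℕ), by
    rw [topHom_natCast, Nat.div_mul_cancel hx, ZMod.natCast_zmod_val]⟩

/-- An additive character with open kernel. -/
structure AddCh (L : Levels Γ) (n : ℕ) where
  /-- The values. -/
  toFun : Γ → ZMod n
  add : ∀ g h, toFun (g * h) = toFun g + toFun h
  lc : LC₁ L toFun

instance {n : ℕ} : CoeFun (AddCh L n) fun _ => Γ → ZMod n := ⟨AddCh.toFun⟩

variable (χ : AddCh L (p ^ K))

/-- The carry in a sum of two values. -/
def carryNat (g h : Γ) : ℕ := ((χ g).val + (χ h).val) / p ^ K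

theorem val_add_val (g h : Γ) :
    (χ g).val + (χ h).val = (χ (g * h)).val + p ^ K * carryNat χ g h := by
  rw [χ.add, ZMod.val_add, carryNat, Nat.mod_add_div]

theorem carryNat_coc (g h j : Γ) :
    carryNat χ (g * h) j + carryNat χ g h = carryNat χ h j + carryNat χ g (h * j) := by
  refine Nat.eq_of_mul_eq_mul_left (pow_pos hp.out.pos K) ?_
  rw [mul_add, mul_add]
  have h1 := val_add_val χ g h
  have h2 := val_add_val χ (g * h) j
  have h3 := val_add_val χ h j
  have h4 := val_add_val χ g (h * j)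
  rw [mul_assoc] at h2
  omega

/-- The carry cocycle. -/
def carry : ↥(Z2 L (triv Γ p)) :=
  ⟨fun x => (carryNat χ x.1 x.2 : ZMod p), by
    obtain ⟨N, hN, hs⟩ := χ.lc
    exact ⟨N, hN, fun g g' u u' hu hu' => by
      simp only [carryNat, hs g u hu, hs g' u' hu']⟩,
  fun g h j => by
    show (carryNat χ (g * h) j : ZMod p) + carryNat χ g h
      = (carryNat χ h j : ZMod p) + carryNat χ g (h * j)
    rw [← Nat.cast_add, carryNat_coc, Nat.cast_add]⟩

theorem natCast_val_add (g h : Γ) :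
    (((χ g).val : ℕ) : ZMod (p ^ (K + 1))) + ((χ h).val : ℕ)
      = ((χ (g * h)).val : ℕ) + topHom p K (carryNat χ g h : ZMod p) := by
  rw [topHom_natCast, ← Nat.cast_add, ← Nat.cast_add, val_add_val, mul_comm]

/-- A trivial carry gives a lift of the character. -/
theorem exists_lift_of_carry (h : mk2 L (triv Γ p) (carry χ) = 0) :
    ∃ ψ : AddCh L (p ^ (K + 1)), ∀ g, lowHom p K (ψ g) = χ g := by
  obtain ⟨b, hblc, hb⟩ := (mk2_eq_zero _ _ _).1 h
  refine ⟨⟨fun g => ((χ g).val : ℕ) - topHom p K (b g), fun g h => ?_,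
    χ.lc.map₂ hblc fun u v => ((u.val : ℕ) : ZMod (p ^ (K + 1))) - topHom p K v⟩, fun g => ?_⟩
  · have e : (carryNat χ g h : ZMod p) = b h - b (g * h) + b g := (congrFun hb (g, h)).symm
    have h1 := natCast_val_add χ g h
    rw [e, map_add, map_sub] at h1
    linear_combination -h1
  · show lowHom p K (((χ g).val : ℕ) - topHom p K (b g)) = χ g
    rw [map_sub, lowHom_topHom, sub_zero, map_natCast, ZMod.natCast_zmod_val]

/-- A lift of the character trivialises the carry. -/
theorem carry_eq_zero_of_lift (ψ : AddCh L (p ^ (K + 1))) (h : ∀ g, lowHom p K (ψ g) = χ g) :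
    mk2 L (triv Γ p) (carry χ) = 0 := by
  classical
  have hex : ∀ x : ZMod (p ^ (K + 1)), ∃ a, topHom p K a = x - ((lowHom p K x).val : ℕ) :=
    fun x => exists_topHom (by rw [map_sub, map_natCast, ZMod.natCast_zmod_val, sub_self])
  choose F hF using hex
  refine (mk2_eq_zero _ _ _).2 ⟨fun g => -F (ψ g), ψ.lc.comp fun x => -F x, funext fun x => ?_⟩
  refine topHom_injective (K := K) ?_
  show topHom p K (-F (ψ x.2) - -F (ψ (x.1 * x.2)) + -F (ψ x.1))
    = topHom p K (carryNat χ x.1 x.2 : ZMod p)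
  rw [map_add, map_sub, map_neg, map_neg, map_neg, hF, hF, hF, h, h, h, ψ.add]
  linear_combination natCast_val_add χ x.1 x.2

/-! ### In the roots of unity -/

theorem exists_zetaC (p : ℕ) [hp : Fact p.Prime] : ∃ ζ : ℂˣ, IsPrimitiveRoot ζ p :=
  have h := Complex.isPrimitiveRoot_exp p hp.out.ne_zero
  ⟨(h.isUnit hp.out.ne_zero).unit, h.isUnit_unit hp.out.ne_zero⟩

variable (p) in
/-- The roots of unity of order `p` in `ℂ`. -/
def muC (a : ZMod p) : ℂˣ := (exists_zetaC p).choose ^ a.val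

theorem muC_add (a b : ZMod p) : muC p (a + b) = muC p a * muC p b :=
  have : NeZero p := ⟨hp.out.ne_zero⟩
  pow_val_add (exists_zetaC p).choose_spec.pow_eq_one a b

theorem muC_natCast (n : ℕ) : muC p (n : ZMod p) = (exists_zetaC p).choose ^ n := by
  rw [muC, ZMod.val_natCast, ← pow_eq_pow_mod _ (exists_zetaC p).choose_spec.pow_eq_one]

theorem muC_injective : Function.Injective (muC p) := fun a b h =>
  have : NeZero p := ⟨hp.out.ne_zero⟩
  ZMod.val_injective p ((exists_zetaC p).choose_spec.pow_inj (ZMod.val_lt a) (ZMod.val_lt b) h)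

theorem exists_muC_eq {x : ℂˣ} (hx : x ^ p = 1) : ∃ a, muC p a = x := by
  have : NeZero p := ⟨hp.out.ne_zero⟩
  have h := (exists_zetaC p).choose_spec
  obtain ⟨i, -, hi⟩ := (IsPrimitiveRoot.coe_units_iff.2 h).eq_pow_of_pow_eq_one
    (show (x : ℂ) ^ p = 1 by rw [← Units.val_pow_eq_pow_val, hx, Units.val_one])
  exact ⟨i, Units.ext (by rw [muC_natCast, Units.val_pow_eq_pow_val, hi])⟩

variable (L) in
/-- A two-cochain with values in `ℂˣ` is the coboundary of roots of unity. -/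
def IsTrivInf (c : Γ × Γ → ℂˣ) : Prop :=
  ∃ b : Γ → ℂˣ, LC₁ L b ∧ (∀ g, IsOfFinOrder (b g)) ∧
    ∀ g h, c (g, h) * b (g * h) = b g * b h

theorem IsTrivInf.mul {c c' : Γ × Γ → ℂˣ} (h : IsTrivInf L c) (h' : IsTrivInf L c') :
    IsTrivInf L fun x => c x * c' x := by
  obtain ⟨b, hb, hbo, hbc⟩ := h
  obtain ⟨b', hb', hbo', hbc'⟩ := h'
  refine ⟨fun g => b g * b' g, hb.map₂ hb' (· * ·), fun g => (hbo g).mul (hbo' g), fun g h => ?_⟩
  rw [mul_mul_mul_comm, hbc, hbc', mul_mul_mul_comm]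

/-- A cocycle modulo `p` in the roots of unity. -/
def muZ (Z : ↥(Z2 L (triv Γ p))) : Γ × Γ → ℂˣ := fun x => muC p (Z.1 x)

theorem muZ_add (Z Z' : ↥(Z2 L (triv Γ p))) :
    muZ (Z + Z') = fun x => muZ Z x * muZ Z' x := funext fun x => muC_add (Z.1 x) (Z'.1 x)

theorem isOfFinOrder_muC (a : ZMod p) : IsOfFinOrder (muC p a) :=
  isOfFinOrder_iff_pow_eq_one.2 ⟨p, hp.out.pos, by
    rw [muC, ← pow_mul, mul_comm, pow_mul, (exists_zetaC p).choose_spec.pow_eq_one, one_pow]⟩

theorem isTrivInf_of_zero {Z : ↥(Z2 L (triv Γ p))} (h : mk2 L (triv Γ p) Z = 0) :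
    IsTrivInf L (muZ Z) := by
  obtain ⟨b, hblc, hb⟩ := (mk2_eq_zero _ _ _).1 h
  refine ⟨fun g => muC p (b g), hblc.comp (muC p), fun g => isOfFinOrder_muC _, fun g h => ?_⟩
  have e : Z.1 (g, h) = b h - b (g * h) + b g := (congrFun hb (g, h)).symm
  show muC p (Z.1 (g, h)) * muC p (b (g * h)) = muC p (b g) * muC p (b h)
  rw [← muC_add, ← muC_add, e]
  congr 1
  ring

/-- The carry becomes trivial in the roots of unity. -/
theorem isTrivInf_carry : IsTrivInf L (muZ (carry χ)) := by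
  obtain ⟨z, hz⟩ := IsAlgClosed.exists_pow_nat_eq (k := ℂ)
    ((exists_zetaC p).choose : ℂ) (pow_pos hp.out.pos K)
  have hz0 : z ≠ 0 := fun h => by
    rw [h, zero_pow (pow_ne_zero K hp.out.ne_zero)] at hz
    exact (exists_zetaC p).choose.ne_zero hz.symm
  let u : ℂˣ := Units.mk0 z hz0
  have hu : u ^ p ^ K = (exists_zetaC p).choose := Units.ext (by
    rw [Units.val_pow_eq_pow_val]
    exact hz)
  have huo : IsOfFinOrder u := isOfFinOrder_iff_pow_eq_one.2 ⟨p ^ K * p,
    Nat.mul_pos (pow_pos hp.out.pos K) hp.out.pos, by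
      rw [pow_mul, hu, (exists_zetaC p).choose_spec.pow_eq_one]⟩
  refine ⟨fun g => u ^ (χ g).val, χ.lc.comp fun x => u ^ x.val, fun g => huo.pow, fun g h => ?_⟩
  show muC p (carryNat χ g h : ZMod p) * u ^ (χ (g * h)).val = u ^ (χ g).val * u ^ (χ h).val
  rw [← pow_add, val_add_val, pow_add, pow_mul, hu, muC_natCast, mul_comm]

end Fermat.Agent.TateLifting
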