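import Fermat.Agent.ScholzReichardt.HasseTwo
import Fermat.Agent.ScholzReichardt.HassePrinciple

/-!
# Classes of degree two of the Galois group of `ℚ` as central extensions

A two-cocycle of the Galois group of `ℚ` modulo `p` descends to a finite quotient, so the Hasse
principle for central embedding problems makes it trivial as soon as it is trivial at every prime.
-/

set_option autoImplicit false
set_option linter.unusedSectionVars false

noncomputable section

namespace Fermat.Agent.TateLifting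

open FA.GalCoh Fermat.Agent.ScholzReichardt

variable {p : ℕ} [hp : Fact p.Prime]

/-- A two-cocycle of a group modulo `p`. -/
structure TwCocycle (p : ℕ) (G : Type) [Group G] where
  /-- The values. -/
  c : G → G → ZMod p
  coc : ∀ g h j, c (g * h) j + c g h = c h j + c g (h * j)

variable {G : Type} [Group G]

namespace TwCocycle

variable (C : TwCocycle p G)

theorem one_left (g : G) : C.c 1 g = C.c 1 1 := by
  have h := C.coc 1 1 g
  simp only [one_mul] at h
  exact (add_left_cancel h).symm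

theorem one_right (g : G) : C.c g 1 = C.c 1 1 := by
  have h := C.coc g 1 1
  simp only [mul_one] at h
  exact add_right_cancel h

/-- The extension of a cocycle. -/
@[ext]
structure Ext (C : TwCocycle p G) where
  /-- The coordinate in the kernel. -/
  val : ZMod p
  /-- The image in the group. -/
  base : G

instance : Mul (Ext C) := ⟨fun x y => ⟨x.val + y.val + C.c x.base y.base, x.base * y.base⟩⟩
instance : One (Ext C) := ⟨⟨-C.c 1 1, 1⟩⟩
instance : Inv (Ext C) := ⟨fun x => ⟨-x.val - C.c x.base⁻¹ x.base - C.c 1 1, x.base⁻¹⟩⟩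

theorem mul_def (x y : Ext C) :
    x * y = ⟨x.val + y.val + C.c x.base y.base, x.base * y.base⟩ := rfl

theorem one_def : (1 : Ext C) = ⟨-C.c 1 1, 1⟩ := rfl

theorem inv_def (x : Ext C) :
    x⁻¹ = ⟨-x.val - C.c x.base⁻¹ x.base - C.c 1 1, x.base⁻¹⟩ := rfl

instance : Group (Ext C) := Group.ofLeftAxioms
  (fun x y z => by
    simp only [mul_def, Ext.mk.injEq, mul_assoc, and_true]
    linear_combination C.coc x.base y.base z.base)
  (fun x => by
    simp only [mul_def, one_def, one_mul, C.one_left]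
    ext <;> simp)
  (fun x => by
    simp only [mul_def, inv_def, one_def, inv_mul_cancel]
    ext
    · show -x.val - C.c x.base⁻¹ x.base - C.c 1 1 + x.val + C.c x.base⁻¹ x.base = -C.c 1 1
      ring
    · rfl)

/-- The central extension of a cocycle. -/
def cExt : CExt p (Ext C) G where
  π := MonoidHom.mk' Ext.base fun _ _ => rfl
  surj g := ⟨⟨0, g⟩, rfl⟩
  j := MonoidHom.mk' (fun a => ⟨Multiplicative.toAdd a - C.c 1 1, 1⟩) fun a b => by
    ext
    · show Multiplicative.toAdd (a * b) - C.c 1 1 = _ + _ + C.c 1 1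
      rw [toAdd_mul]
      ring
    · exact (mul_one _).symm
  inj a b h := Multiplicative.toAdd.injective (sub_left_inj.1 (congrArg Ext.val h))
  range_eq := by
    ext x
    refine ⟨?_, fun hx => ⟨Multiplicative.ofAdd (x.val + C.c 1 1), ?_⟩⟩
    · rintro ⟨a, rfl⟩
      rfl
    · ext
      · exact add_sub_cancel_right x.val (C.c 1 1)
      · exact (MonoidHom.mem_ker.1 hx).symm
  central a x := by
    show (⟨Multiplicative.toAdd a - C.c 1 1, 1⟩ : Ext C) * x = x * ⟨_, 1⟩
    ext
    · show Multiplicative.toAdd a - C.c 1 1 + x.val + C.c 1 x.base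
        = x.val + (Multiplicative.toAdd a - C.c 1 1) + C.c x.base 1
      rw [C.one_left x.base, C.one_right x.base]
      ring
    · exact (one_mul _).trans (mul_one _).symm

instance [Finite G] : Finite (Ext C) :=
  have : NeZero p := ⟨hp.out.ne_zero⟩
  Finite.of_injective (fun x => (x.val, x.base)) fun _ _ h =>
    Ext.ext (congrArg Prod.fst h) (congrArg Prod.snd h)

end TwCocycle

/-- A cocycle is the pullback of one on a finite quotient. -/
theorem exists_descend (Z : ↥(Z2 LQ (triv GQ p))) :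
    ∃ (N : Subgroup GQ) (_ : N.Normal) (_ : N ∈ LQ.carrier) (C : TwCocycle p (GQ ⧸ N)),
      ∀ g h, Z.1 (g, h) = C.c (g : GQ ⧸ N) (h : GQ ⧸ N) := by
  obtain ⟨M, hM, hs⟩ := Z.2.1
  obtain ⟨N, hN, hle, hn⟩ := LQ.exists_normal hM
  have key : ∀ g h : GQ,
      Z.1 (((g : GQ ⧸ N)).out, ((h : GQ ⧸ N)).out) = Z.1 (g, h) := fun g h => by
    obtain ⟨s, hs1⟩ := QuotientGroup.mk_out_eq_mul N g
    obtain ⟨t, ht⟩ := QuotientGroup.mk_out_eq_mul N h
    rw [hs1, ht]
    exact hs g h s.1 t.1 (hle s.2) (hle t.2)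
  refine ⟨N, hn, hN, ⟨fun x y => Z.1 (x.out, y.out), fun x y z => ?_⟩, fun g h => (key g h).symm⟩
  obtain ⟨g, rfl⟩ := QuotientGroup.mk_surjective x
  obtain ⟨h, rfl⟩ := QuotientGroup.mk_surjective y
  obtain ⟨j, rfl⟩ := QuotientGroup.mk_surjective z
  simp only [← QuotientGroup.mk_mul, key]
  exact Z.2.2 g h j

/-- A cocycle at a prime. -/
def locZ (q : ℕ) [Fact q.Prime] :
    ↥(Z2 LQ (triv GQ p)) →ₗ[ZMod p] ↥(Z2 (LL q) (triv (LG q) p)) where
  toFun Z := ⟨fun x => Z.1 (loc q x.1, loc q x.2), Z.2.1.precomp compat_loc, fun g h j => by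
    have e := Z.2.2 (loc q g) (loc q h) (loc q j)
    simp only [map_mul]
    exact e⟩
  map_add' _ _ := rfl
  map_smul' _ _ := rfl

theorem locZ_apply (q : ℕ) [Fact q.Prime] (Z : ↥(Z2 LQ (triv GQ p))) (x : LG q × LG q) :
    (locZ q Z).1 x = Z.1 (loc q x.1, loc q x.2) := rfl

/-- The class at a prime. -/
def locClass (q : ℕ) [Fact q.Prime] :
    ↥(Z2 LQ (triv GQ p)) →ₗ[ZMod p] H2 (LL q) (triv (LG q) p) :=
  (mk2 (LL q) (triv (LG q) p)).comp (locZ q)

/-- Where the quotient is unramified the class vanishes; so it does outside a finite set. -/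
theorem exists_finset_locClass (Z : ↥(Z2 LQ (triv GQ p))) :
    ∃ S : Finset Nat.Primes, ∀ q : Nat.Primes, q ∉ S → locClass (q : ℕ) Z = 0 := by
  obtain ⟨N, hn, hN, C, hC⟩ := exists_descend Z
  have := LQ.finiteIndex hN
  set f := QuotientGroup.mk' N
  have hfo : IsOpen (f.ker : Set GQ) := by
    rw [QuotientGroup.ker_mk']
    exact mem_LQ_iff_isOpen.1 hN
  obtain ⟨S, hS⟩ := exists_finset_unrAt f hfo
  refine ⟨S, fun q hq => ?_⟩
  obtain ⟨β, hβlc, hβ⟩ := exists_local_lift_of_unr C.cExt hfo (hS q hq)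
  have hbase : ∀ τ, (β τ).base = f (loc (q : ℕ) τ) := hβ
  refine (mk2_eq_zero _ _ _).2 ⟨fun τ => -(β τ).val, hβlc.comp fun x => -x.val,
    funext fun x => ?_⟩
  show -(β x.2).val - -(β (x.1 * x.2)).val + -(β x.1).val
    = Z.1 (loc (q : ℕ) x.1, loc (q : ℕ) x.2)
  have h := congrArg TwCocycle.Ext.val (map_mul β x.1 x.2)
  rw [TwCocycle.mul_def, hbase, hbase] at h
  rw [h, hC]
  show _ = C.c (f (loc (q : ℕ) x.1)) (f (loc (q : ℕ) x.2))
  ring

/-- **A class trivial at every prime is trivial.** -/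
theorem mk2_eq_zero_of_local (Z : ↥(Z2 LQ (triv GQ p)))
    (h : ∀ q : Nat.Primes, locClass (q : ℕ) Z = 0) : mk2 LQ (triv GQ p) Z = 0 := by
  obtain ⟨N, hn, hN, C, hC⟩ := exists_descend Z
  set f := QuotientGroup.mk' N
  have hfo : IsOpen (f.ker : Set GQ) := by
    rw [QuotientGroup.ker_mk']
    exact mem_LQ_iff_isOpen.1 hN
  obtain ⟨ψ, hψo, hψ⟩ := exists_lift_of_local' C.cExt hfo fun q => by
    obtain ⟨b, hblc, hb⟩ := (mk2_eq_zero _ _ _).1 (h q)
    have hb' : ∀ g j, C.c (f (loc (q : ℕ) g)) (f (loc (q : ℕ) j)) = b j - b (g * j) + b g :=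
      fun g j => (hC _ _).symm.trans (congrFun hb (g, j)).symm
    let β : LG (q : ℕ) →* C.Ext :=
      MonoidHom.mk' (fun τ => ⟨-b τ, f (loc (q : ℕ) τ)⟩) fun g j => by
        ext
        · show -b (g * j) = -b g + -b j + C.c (f (loc (q : ℕ) g)) (f (loc (q : ℕ) j))
          rw [hb']
          ring
        · show f (loc (q : ℕ) (g * j)) = f (loc (q : ℕ) g) * f (loc (q : ℕ) j)
          rw [map_mul, map_mul]
    exact ⟨β, hblc.map₂ (loc_lc f hfo (q : ℕ))
      (fun u v => (⟨-u, v⟩ : C.Ext)), fun τ => rfl⟩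
  have hbase : ∀ g, (ψ g).base = f g := hψ
  refine (mk2_eq_zero _ _ _).2 ⟨fun g => -(ψ g).val, (lc_of_isOpen ψ hψo).comp fun x => -x.val,
    funext fun x => ?_⟩
  show -(ψ x.2).val - -(ψ (x.1 * x.2)).val + -(ψ x.1).val = Z.1 (x.1, x.2)
  have h' := congrArg TwCocycle.Ext.val (map_mul ψ x.1 x.2)
  rw [TwCocycle.mul_def, hbase, hbase] at h'
  rw [h', hC]
  show _ = C.c (f x.1) (f x.2)
  ring

end Fermat.Agent.TateLifting
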